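import Mathlib
import Fermat.Prelude.Def_ModularCurve_LaurentCoeff
import Fermat.Prelude.Def_GaloisRep_Flat

/-!
# S16 library, dictionary package (D): Laurent series with coefficients in an additive subgroup

* `seriesIn Z`: the additive subgroup of `K((q))` of series all of whose coefficients lie in the
  additive subgroup `Z ≤ K`; closed under multiplication by series with coefficients in a subring
  `A` with `A · Z ⊆ Z`.
* `lpow ℓ s = ℓ^s ℤ_(ℓ) ≤ ℚ` and its basic properties.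
-/

set_option autoImplicit false

noncomputable section

open ModularCurve HahnSeries

namespace Fermat.Agent.S16lib.Dict

section SeriesIn

variable {K : Type*} [CommRing K]

/-- Laurent series with all coefficients in the additive subgroup `Z`. -/
def seriesIn (Z : AddSubgroup K) : AddSubgroup (LaurentSeries K) where
  carrier := {g | ∀ n, g.coeff n ∈ Z}
  add_mem' := by
    intro f g hf hg n
    rw [HahnSeries.coeff_add]
    exact Z.add_mem (hf n) (hg n)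
  zero_mem' := by
    intro n
    rw [HahnSeries.coeff_zero]
    exact Z.zero_mem
  neg_mem' := by
    intro f hf n
    rw [HahnSeries.coeff_neg]
    exact Z.neg_mem (hf n)

theorem mem_seriesIn {Z : AddSubgroup K} {g : LaurentSeries K} :
    g ∈ seriesIn Z ↔ ∀ n, g.coeff n ∈ Z := Iff.rfl

theorem seriesIn_mono {Z Z' : AddSubgroup K} (h : Z ≤ Z') : seriesIn Z ≤ seriesIn Z' :=
  fun _ hg n => h (hg n)

/-- `seriesIn A · seriesIn Z ⊆ seriesIn Z` when `A · Z ⊆ Z`. -/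
theorem mul_mem_seriesIn {A Z : AddSubgroup K} (hAZ : ∀ a ∈ A, ∀ z ∈ Z, a * z ∈ Z)
    {f g : LaurentSeries K} (hf : f ∈ seriesIn A) (hg : g ∈ seriesIn Z) : f * g ∈ seriesIn Z := by
  intro n
  rw [HahnSeries.coeff_mul]
  exact Z.sum_mem fun ij _ => hAZ _ (hf ij.1) _ (hg ij.2)

/-- The image of an integral series has coefficients in any additive subgroup containing the
integers. -/
theorem coeffMap_int_mem_seriesIn {Z : AddSubgroup K} (hZ : ∀ m : ℤ, (m : K) ∈ Z)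
    (a : LaurentSeries ℤ) : coeffMap (Int.castRingHom K) a ∈ seriesIn Z := by
  intro n
  have : (coeffMap (Int.castRingHom K) a).coeff n = ((a.coeff n : ℤ) : K) := rfl
  rw [this]
  exact hZ _

end SeriesIn

section LPow

variable (ℓ : ℕ) [hℓ : Fact ℓ.Prime]

/-- `ℓ^s ℤ_(ℓ)` as an additive subgroup of `ℚ`. -/
def lpow (s : ℕ) : AddSubgroup ℚ where
  carrier := {r | ∃ u ∈ GaloisRep.ratLocalizedAt ℓ, r = (ℓ : ℚ) ^ s * u}
  add_mem' := by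
    rintro _ _ ⟨u, hu, rfl⟩ ⟨v, hv, rfl⟩
    exact ⟨u + v, Subring.add_mem _ hu hv, by ring⟩
  zero_mem' := ⟨0, Subring.zero_mem _, by ring⟩
  neg_mem' := by
    rintro _ ⟨u, hu, rfl⟩
    exact ⟨-u, Subring.neg_mem _ hu, by ring⟩

omit hℓ in
theorem mem_lpow {s : ℕ} {r : ℚ} :
    r ∈ lpow ℓ s ↔ ∃ u ∈ GaloisRep.ratLocalizedAt ℓ, r = (ℓ : ℚ) ^ s * u := Iff.rfl

omit hℓ in
theorem mem_lpow_zero {r : ℚ} : r ∈ lpow ℓ 0 ↔ r ∈ GaloisRep.ratLocalizedAt ℓ := by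
  rw [mem_lpow]
  constructor
  · rintro ⟨u, hu, rfl⟩
    simpa using hu
  · intro h
    exact ⟨r, h, by simp⟩

omit hℓ in
theorem intCast_mem_ratLocalizedAt (m : ℤ) : (m : ℚ) ∈ GaloisRep.ratLocalizedAt ℓ := by
  show ((m : ℚ)).den.Coprime ℓ
  simp

omit hℓ in
theorem intCast_mem_lpow_zero (m : ℤ) : (m : ℚ) ∈ lpow ℓ 0 :=
  (mem_lpow_zero ℓ).mpr (intCast_mem_ratLocalizedAt ℓ m)

omit hℓ in
theorem natCast_mem_ratLocalizedAt (m : ℕ) : (m : ℚ) ∈ GaloisRep.ratLocalizedAt ℓ := by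
  show ((m : ℚ)).den.Coprime ℓ
  simp

omit hℓ in
theorem lpow_antitone {s t : ℕ} (h : s ≤ t) : lpow ℓ t ≤ lpow ℓ s := by
  rintro _ ⟨u, hu, rfl⟩
  refine ⟨(ℓ : ℚ) ^ (t - s) * u, Subring.mul_mem _ (Subring.pow_mem _
    (natCast_mem_ratLocalizedAt ℓ ℓ) _) hu, ?_⟩
  rw [← mul_assoc, ← _root_.pow_add, Nat.add_sub_cancel' h]

omit hℓ in
/-- `ℤ_(ℓ) · ℓ^s ℤ_(ℓ) ⊆ ℓ^s ℤ_(ℓ)`. -/
theorem mul_mem_lpow {s : ℕ} {a z : ℚ} (ha : a ∈ lpow ℓ 0) (hz : z ∈ lpow ℓ s) :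
    a * z ∈ lpow ℓ s := by
  rw [mem_lpow_zero] at ha
  obtain ⟨u, hu, rfl⟩ := hz
  exact ⟨a * u, Subring.mul_mem _ ha hu, by ring⟩

omit hℓ in
theorem pow_mul_mem_lpow {s t : ℕ} {z : ℚ} (hz : z ∈ lpow ℓ s) :
    (ℓ : ℚ) ^ t * z ∈ lpow ℓ (s + t) := by
  obtain ⟨u, hu, rfl⟩ := hz
  exact ⟨u, hu, by ring⟩

/-- Cancel `ℓ^t`. -/
theorem mem_lpow_of_pow_mul_mem {s t : ℕ} {z : ℚ} (hz : (ℓ : ℚ) ^ t * z ∈ lpow ℓ (s + t)) :
    z ∈ lpow ℓ s := by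
  obtain ⟨u, hu, h⟩ := hz
  refine ⟨u, hu, ?_⟩
  have hℓ0 : (ℓ : ℚ) ≠ 0 := Nat.cast_ne_zero.mpr hℓ.out.ne_zero
  have : (ℓ : ℚ) ^ t * z = (ℓ : ℚ) ^ t * ((ℓ : ℚ) ^ s * u) := by
    rw [h]; ring
  exact mul_left_cancel₀ (pow_ne_zero _ hℓ0) this

/-- An integer in `ℓ ℤ_(ℓ)` is divisible by `ℓ`. -/
theorem dvd_of_intCast_mem_lpow_one {m : ℤ} (h : (m : ℚ) ∈ lpow ℓ 1) : (ℓ : ℤ) ∣ m := by
  obtain ⟨u, hu, h⟩ := h
  have hu' : u.den.Coprime ℓ := hu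
  rw [pow_one] at h
  -- `m * den u = ℓ * num u`
  have h1 : (m : ℚ) * (u.den : ℚ) = (ℓ : ℚ) * (u.num : ℚ) := by
    rw [h, mul_assoc, Rat.mul_den_eq_num]
  have h2 : m * (u.den : ℤ) = (ℓ : ℤ) * u.num := by
    exact_mod_cast h1
  have h3 : (ℓ : ℤ) ∣ m * (u.den : ℤ) := ⟨u.num, h2⟩
  have hp : Prime (ℓ : ℤ) := Nat.prime_iff_prime_int.mp hℓ.out
  rcases hp.dvd_or_dvd h3 with h4 | h4
  · exact h4
  · exfalso
    have h5 : ℓ ∣ u.den := by exact_mod_cast h4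
    have h6 : ℓ ∣ Nat.gcd u.den ℓ := Nat.dvd_gcd h5 dvd_rfl
    rw [hu'] at h6
    exact hℓ.out.one_lt.ne' (Nat.dvd_one.mp h6)

/-- An integral series whose image lies in `ℓ ℤ_(ℓ)((q))` vanishes mod `ℓ`. -/
theorem coeffMap_zmod_eq_zero_of_mem_seriesIn {a : LaurentSeries ℤ}
    (h : coeffMap (Int.castRingHom ℚ) a ∈ seriesIn (lpow ℓ 1)) :
    coeffMap (Int.castRingHom (ZMod ℓ)) a = 0 := by
  ext n
  have h1 : (coeffMap (Int.castRingHom ℚ) a).coeff n = ((a.coeff n : ℤ) : ℚ) := rfl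
  have h2 := h n
  rw [h1] at h2
  have h3 := dvd_of_intCast_mem_lpow_one ℓ h2
  have h4 : (coeffMap (Int.castRingHom (ZMod ℓ)) a).coeff n = ((a.coeff n : ℤ) : ZMod ℓ) := rfl
  rw [h4, HahnSeries.coeff_zero]
  exact (ZMod.intCast_zmod_eq_zero_iff_dvd _ _).mpr h3

end LPow

end Fermat.Agent.S16lib.Dict
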