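import Mathlib
import Fermat.Agent.S16lib.Dict.SeriesIn
import Fermat.Agent.S28lib.Representation
import Fermat.Agent.S28lib.RedRing

/-!
# S16 library, dictionary package (D): the formal dictionary over `ℚ((q))`

Let `x_1, …, x_n` be integer polynomial expressions in the `j(q^d)` which are linearly independent
over `𝔽_ℓ[j]` mod `ℓ`.  If `g ∈ ℚ((q))` satisfies a nontrivial `ℚ[j]`-linear relation with the
`x_i` and all coefficients of `g` lie in `ℓ^s ℤ_(ℓ)`, then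
`b(j) · g = ℓ^s ∑ a_i(j) x_i` with `b, a_i ∈ ℤ[X]` and `b ≢ 0 mod ℓ`.
-/

set_option autoImplicit false

noncomputable section

open ModularCurve HahnSeries Polynomial

namespace Fermat.Agent.S16lib.Dict

open Fermat.Agent.S28lib Fermat.Agent.S28lib.Red

variable (ℓ : ℕ) [hℓ : Fact ℓ.Prime] {n : ℕ} (x : Fin n → MvPolynomial ℕ ℤ)

omit hℓ in
/-- `b(j)` for `b ∈ ℤ[X]` has `ℓ`-integral coefficients. -/
theorem evalJ_map_mem_seriesIn (b : ℤ[X]) :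
    evalJ ℚ (jqModC ℚ) (b.map (Int.castRingHom ℚ)) ∈ seriesIn (lpow ℓ 0) := by
  rw [← coeffMap_bZ]
  exact coeffMap_int_mem_seriesIn (intCast_mem_lpow_zero ℓ) _

omit hℓ in
/-- `b(j) · g` has coefficients in `ℓ^s ℤ_(ℓ)` if `g` has. -/
theorem evalJ_map_mul_mem_seriesIn (b : ℤ[X]) {s : ℕ} {g : LaurentSeries ℚ}
    (hg : g ∈ seriesIn (lpow ℓ s)) :
    evalJ ℚ (jqModC ℚ) (b.map (Int.castRingHom ℚ)) * g ∈ seriesIn (lpow ℓ s) :=
  mul_mem_seriesIn (fun _ ha _ hz => mul_mem_lpow ℓ ha hz) (evalJ_map_mem_seriesIn ℓ b) hg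

/-- Key step: if `∑ a_i(j) x_i ∈ ℓ ℤ_(ℓ)((q))` then all `a_i ≡ 0 mod ℓ`. -/
theorem map_eq_zero_of_intComb_mem
    (hind : ∀ P : Fin n → Polynomial (ZMod ℓ),
      ∑ i, evalJ (ZMod ℓ) (jqModC (ZMod ℓ)) (P i) * evalDiv (ZMod ℓ) (x i) = 0 → ∀ i, P i = 0)
    (a : Fin n → ℤ[X])
    (h : ∑ i, evalJ ℚ (jqModC ℚ) ((a i).map (Int.castRingHom ℚ)) * evalDiv ℚ (x i) ∈
      seriesIn (lpow ℓ 1)) :
    ∀ i, (a i).map (Int.castRingHom (ZMod ℓ)) = 0 := by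
  rw [← coeffMap_intComb] at h
  have h1 := coeffMap_zmod_eq_zero_of_mem_seriesIn ℓ h
  rw [coeffMap_intComb] at h1
  exact hind _ h1

/-- An integer polynomial vanishing mod `ℓ` is `ℓ` times an integer polynomial. -/
theorem exists_eq_C_mul_of_map_eq_zero {Q : ℤ[X]} (h : Q.map (Int.castRingHom (ZMod ℓ)) = 0) :
    ∃ Q' : ℤ[X], Q = C (ℓ : ℤ) * Q' :=
  (map_intCast_zmod_eq_zero_iff ℓ Q).mp h

omit hℓ in
theorem evalJ_map_C_mul (Q' : ℤ[X]) :
    evalJ ℚ (jqModC ℚ) ((C (ℓ : ℤ) * Q').map (Int.castRingHom ℚ)) =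
      HahnSeries.C (ℓ : ℚ) * evalJ ℚ (jqModC ℚ) (Q'.map (Int.castRingHom ℚ)) := by
  rw [Polynomial.map_mul, map_mul, Polynomial.map_C]
  congr 1
  simp only [evalJ, AlgHom.toRingHom_eq_coe, RingHom.coe_coe, Polynomial.aeval_C, eq_intCast,
    Int.cast_natCast]
  rw [algebraMap_laurent_eq_C]

/-- multiplying a series by the constant `ℓ^t` -/
theorem C_pow_mul_mem_seriesIn_iff {s t : ℕ} {g : LaurentSeries ℚ} :
    HahnSeries.C ((ℓ : ℚ) ^ t) * g ∈ seriesIn (lpow ℓ (s + t)) ↔ g ∈ seriesIn (lpow ℓ s) := by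
  constructor
  · intro h n
    have h1 := h n
    rw [HahnSeries.C_mul_eq_smul, HahnSeries.coeff_smul, smul_eq_mul] at h1
    exact mem_lpow_of_pow_mul_mem ℓ h1
  · intro h n
    rw [HahnSeries.C_mul_eq_smul, HahnSeries.coeff_smul, smul_eq_mul]
    exact pow_mul_mem_lpow ℓ (h n)

/-- **The formal dictionary (I), (I').** -/
theorem exists_int_relation_of_mem_seriesIn
    (hind : ∀ P : Fin n → Polynomial (ZMod ℓ),
      ∑ i, evalJ (ZMod ℓ) (jqModC (ZMod ℓ)) (P i) * evalDiv (ZMod ℓ) (x i) = 0 → ∀ i, P i = 0)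
    (g : LaurentSeries ℚ)
    (hrel : ∃ P : Fin (n + 1) → ℚ[X], P ≠ 0 ∧
      ∑ i, evalJ ℚ (jqModC ℚ) (P i) *
        (Fin.cons g (fun i => evalDiv ℚ (x i)) : Fin (n + 1) → LaurentSeries ℚ) i = 0)
    (s : ℕ) (hg : g ∈ seriesIn (lpow ℓ s)) :
    ∃ (b : ℤ[X]) (a : Fin n → ℤ[X]), b.map (Int.castRingHom (ZMod ℓ)) ≠ 0 ∧
      evalJ ℚ (jqModC ℚ) (b.map (Int.castRingHom ℚ)) * g =
        HahnSeries.C ((ℓ : ℚ) ^ s) *
          ∑ i, evalJ ℚ (jqModC ℚ) ((a i).map (Int.castRingHom ℚ)) * evalDiv ℚ (x i) := by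
  obtain ⟨b, a, -, hprim, hba⟩ := exists_int_relation ℓ x hind g hrel
  have hg0 : g ∈ seriesIn (lpow ℓ 0) := seriesIn_mono (lpow_antitone ℓ (Nat.zero_le s)) hg
  -- `b ≢ 0 mod ℓ`
  have hb : b.map (Int.castRingHom (ZMod ℓ)) ≠ 0 := by
    intro hb0
    obtain ⟨b', rfl⟩ := exists_eq_C_mul_of_map_eq_zero ℓ hb0
    have h1 : ∑ i, evalJ ℚ (jqModC ℚ) ((a i).map (Int.castRingHom ℚ)) * evalDiv ℚ (x i) ∈
        seriesIn (lpow ℓ 1) := by
      rw [← hba, evalJ_map_C_mul, mul_assoc]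
      have h2 := evalJ_map_mul_mem_seriesIn ℓ b' hg0
      have h3 := (C_pow_mul_mem_seriesIn_iff ℓ (s := 0) (t := 1)).mpr h2
      rwa [pow_one, zero_add] at h3
    have h4 := map_eq_zero_of_intComb_mem ℓ x hind a h1
    rcases hprim with h5 | ⟨i, h5⟩
    · exact h5 hb0
    · exact h5 (h4 i)
  refine ⟨b, ?_⟩
  -- divide the `a_i` by `ℓ^t`, by induction on `t ≤ s`
  have key : ∀ t : ℕ, t ≤ s → ∃ a' : Fin n → ℤ[X],
      evalJ ℚ (jqModC ℚ) (b.map (Int.castRingHom ℚ)) * g =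
        HahnSeries.C ((ℓ : ℚ) ^ t) *
          ∑ i, evalJ ℚ (jqModC ℚ) ((a' i).map (Int.castRingHom ℚ)) * evalDiv ℚ (x i) := by
    intro t
    induction t with
    | zero =>
      intro _
      refine ⟨a, ?_⟩
      rw [pow_zero, map_one, one_mul]
      exact hba
    | succ t ih =>
      intro hts
      obtain ⟨a', ha'⟩ := ih (Nat.le_of_succ_le hts)
      have h1 : ∑ i, evalJ ℚ (jqModC ℚ) ((a' i).map (Int.castRingHom ℚ)) * evalDiv ℚ (x i) ∈
          seriesIn (lpow ℓ 1) := by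
        have h2 : HahnSeries.C ((ℓ : ℚ) ^ t) *
            ∑ i, evalJ ℚ (jqModC ℚ) ((a' i).map (Int.castRingHom ℚ)) * evalDiv ℚ (x i) ∈
            seriesIn (lpow ℓ (1 + t)) := by
          rw [← ha']
          refine seriesIn_mono (lpow_antitone ℓ ?_) (evalJ_map_mul_mem_seriesIn ℓ b hg)
          omega
        exact (C_pow_mul_mem_seriesIn_iff ℓ).mp h2
      have h3 := map_eq_zero_of_intComb_mem ℓ x hind a' h1
      choose a'' ha'' using fun i => exists_eq_C_mul_of_map_eq_zero ℓ (h3 i)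
      refine ⟨a'', ?_⟩
      rw [ha']
      have h4 : ∀ i, evalJ ℚ (jqModC ℚ) ((a' i).map (Int.castRingHom ℚ)) * evalDiv ℚ (x i) =
          HahnSeries.C (ℓ : ℚ) *
            (evalJ ℚ (jqModC ℚ) ((a'' i).map (Int.castRingHom ℚ)) * evalDiv ℚ (x i)) := by
        intro i
        rw [ha'' i, evalJ_map_C_mul, mul_assoc]
      rw [Finset.sum_congr rfl fun i _ => h4 i, ← Finset.mul_sum, ← mul_assoc, ← map_mul,
        pow_succ]
  obtain ⟨a', ha'⟩ := key s le_rfl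
  exact ⟨a', hb, ha'⟩

end Fermat.Agent.S16lib.Dict
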