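import Mathlib
import Fermat.Agent.S16lib.Dict.Formal
import Fermat.Agent.ProgramR.BarField.DegreeUpper

/-!
# S16 library, dictionary package (D): from functions on `Γ₀(N)` to the formal dictionary

* `evalDivW N`: integer polynomial expressions in the functions `z ↦ j(dz)`, `d ∣ N`, as elements of
  `WH0 Γ₀(N)`; their `q`-expansion is `evalDiv ℂ`.
* `exists_relation_WH0`: if `y ∈ WH0 Γ₀(N)` has a rational `q`-expansion `ŷ` at `i∞` with all
  coefficients in `ℓ^s ℤ_(ℓ)`, then `b(j) · y = ℓ^s ∑ a_i(j) · x_i` in `WH0 Γ₀(N)` with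
  `b, a_i ∈ ℤ[X]`, `b ≢ 0 mod ℓ` (for `n = ψ(N)` expressions `x_i` independent mod `ℓ`).
-/

set_option autoImplicit false

noncomputable section

open ModularCurve HahnSeries Polynomial CongruenceSubgroup

namespace Fermat.Agent.S16lib.Dict

open Fermat.Agent.S28lib Fermat.Agent.ProgramR Fermat.Agent.ProgramR.BarField

attribute [local instance] Genus.cosetFintype

variable (N : ℕ) [NeZero N]

/-- `z ↦ j(dz)` as an element of `WH0 Γ₀(N)` (junk value `0` unless `d ∣ N`). -/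
def jdW (d : ℕ) : ↥(WH0 (Gamma0 N)) :=
  if h : d ∣ N then
    @jdWH0 N d ⟨fun h0 => NeZero.ne N (by rw [h0, zero_dvd_iff] at h; exact h)⟩ h
  else 0

theorem jdW_of_dvd (d : ℕ) [NeZero d] (h : d ∣ N) : jdW N d = jdWH0 N d h := by
  rw [jdW, dif_pos h]

/-- Integer polynomial expressions in the `j(dz)`, `d ∣ N`, as elements of `WH0 Γ₀(N)`. -/
def evalDivW : MvPolynomial ℕ ℤ →+* ↥(WH0 (Gamma0 N)) :=
  MvPolynomial.eval₂Hom (Int.castRingHom ↥(WH0 (Gamma0 N))) (jdW N)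

@[simp] theorem evalDivW_X (d : ℕ) : evalDivW N (MvPolynomial.X d) = jdW N d := by
  simp [evalDivW]

theorem qExpWH0_jdWH0 (d : ℕ) [NeZero d] (h : d ∣ N) :
    qExpWH0 N (jdWH0 N d h) = qExpand ℂ d (jqModC ℂ) := by
  rw [← qExpFF_jdWH0 N d h, qExpFF_algebraMap, qExpWH0_apply]

/-- The `q`-expansion of `evalDivW`. -/
theorem qExpWH0_evalDivW (P : MvPolynomial ℕ ℤ) (hP : ∀ d ∈ P.vars, d ∣ N) :
    qExpWH0 N (evalDivW N P) = evalDiv ℂ P := by
  have h := MvPolynomial.hom_congr_vars (f₁ := (qExpWH0 N).comp (evalDivW N))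
    (f₂ := evalDiv ℂ) (p₁ := P) (p₂ := P) (Subsingleton.elim _ _) ?_ rfl
  · exact h
  · intro d hd _
    have hdN := hP d hd
    have : NeZero d := ⟨fun h0 => NeZero.ne N (by rw [h0, zero_dvd_iff] at hdN; exact hdN)⟩
    rw [RingHom.comp_apply, evalDivW_X, evalDiv_X, jdW_of_dvd N d hdN, qExpWH0_jdWH0,
      jAt_of_neZero]

/-- The `q`-expansion of `b(j)` for `b ∈ ℤ[X]`. -/
theorem qExpWH0_algebraMap_map_int (b : ℤ[X]) :
    qExpWH0 N (algebraMap ℂ[X] ↥(WH0 (Gamma0 N)) (b.map (Int.castRingHom ℂ))) =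
      coeffMap (algebraMap ℚ ℂ) (evalJ ℚ (jqModC ℚ) (b.map (Int.castRingHom ℚ))) := by
  rw [qExpWH0_algebraMap_poly, coeffMap_evalJ, coeffMap_jqModC, Polynomial.map_map]
  have : (algebraMap ℚ ℂ).comp (Int.castRingHom ℚ) = Int.castRingHom ℂ := Subsingleton.elim _ _
  rw [this]
  rfl

variable (ℓ : ℕ) [hℓ : Fact ℓ.Prime]

/-- **The dictionary on `WH0 Γ₀(N)`**. -/
theorem exists_relation_WH0 (x : Fin (dedekindPsi N) → MvPolynomial ℕ ℤ)
    (hx : ∀ i, ∀ d ∈ (x i).vars, d ∣ N)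
    (hind : ∀ P : Fin (dedekindPsi N) → Polynomial (ZMod ℓ),
      ∑ i, evalJ (ZMod ℓ) (jqModC (ZMod ℓ)) (P i) * evalDiv (ZMod ℓ) (x i) = 0 → ∀ i, P i = 0)
    (y : ↥(WH0 (Gamma0 N))) (yq : LaurentSeries ℚ)
    (hy : qExpWH0 N y = coeffMap (algebraMap ℚ ℂ) yq)
    (s : ℕ) (hs : yq ∈ seriesIn (lpow ℓ s)) :
    ∃ (b : ℤ[X]) (a : Fin (dedekindPsi N) → ℤ[X]), b.map (Int.castRingHom (ZMod ℓ)) ≠ 0 ∧
      algebraMap ℂ[X] ↥(WH0 (Gamma0 N)) (b.map (Int.castRingHom ℂ)) * y =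
        algebraMap ℂ ↥(WH0 (Gamma0 N)) ((ℓ : ℂ) ^ s) *
          ∑ i, algebraMap ℂ[X] ↥(WH0 (Gamma0 N)) ((a i).map (Int.castRingHom ℂ)) *
            evalDivW N (x i) := by
  classical
  set e : ℚ →+* ℂ := algebraMap ℚ ℂ with he
  -- the family `(y, x_1, …, x_n)` in `WH0` and its `q`-expansions
  set v : Fin (dedekindPsi N + 1) → ↥(WH0 (Gamma0 N)) := Fin.cons y (fun i => evalDivW N (x i)) with hv
  set w : Fin (dedekindPsi N + 1) → LaurentSeries ℚ := Fin.cons yq (fun i => evalDiv ℚ (x i)) with hw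
  have hvw : ∀ i, qExpWH0 N (v i) = coeffMap e (w i) := by
    intro i
    refine Fin.cases ?_ (fun i => ?_) i
    · simp only [hv, hw, Fin.cons_zero]
      exact hy
    · simp only [hv, hw, Fin.cons_succ]
      rw [qExpWH0_evalDivW N (x i) (hx i), coeffMap_evalDiv]
  -- a nontrivial `ℂ[j]`-relation in `WH0`
  have hdep : ¬ LinearIndependent ℂ[X] v := by
    intro hlin
    have h4 := hlin.fintype_card_le_finrank
    rw [Fintype.card_fin, WH0.finrank_Gamma0] at h4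
    omega
  -- hence a nontrivial `ℚ[j]`-relation among the `q`-expansions
  have hrel : ∃ P : Fin (dedekindPsi N + 1) → ℚ[X], P ≠ 0 ∧
      ∑ i, evalJ ℚ (jqModC ℚ) (P i) * w i = 0 := by
    by_contra hcon
    push Not at hcon
    apply hdep
    rw [Fintype.linearIndependent_iff]
    intro g hg
    have h1 := congrArg (qExpWH0 N) hg
    rw [map_sum, map_zero] at h1
    have h2 : ∀ i, qExpWH0 N (g i • v i) =
        aeval (coeffMap e (jqModC ℚ)) (g i) * coeffMap e (w i) := by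
      intro i
      rw [Algebra.smul_def, map_mul, qExpWH0_algebraMap_poly, hvw, coeffMap_jqModC]
    simp only [h2] at h1
    refine poly_independent_coeffMap e (jqModC ℚ) w ?_ g h1
    intro p hp
    by_contra hne
    have hp0 : p ≠ 0 := by
      intro h0
      apply hne
      intro i
      rw [h0]
      rfl
    exact hcon p hp0 hp
  obtain ⟨b, a, hb, hba⟩ := exists_int_relation_of_mem_seriesIn ℓ x hind yq hrel s hs
  refine ⟨b, a, hb, ?_⟩
  apply qExpWH0_injective N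
  rw [map_mul, map_mul, map_sum, hy, qExpWH0_algebraMap_map_int, ← map_mul, hba, map_mul, map_sum]
  congr 1
  · rw [qExpWH0_algebraMap, coeffMap_C]
    congr 1
    simp
  · refine Finset.sum_congr rfl fun i _ => ?_
    rw [map_mul, map_mul, qExpWH0_algebraMap_map_int, qExpWH0_evalDivW N (x i) (hx i),
      coeffMap_evalDiv]

end Fermat.Agent.S16lib.Dict
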