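import Mathlib
import Fermat.Agent.S16lib.Dict.Analytic
import Fermat.Agent.ProgramR.CuspLocal.JExp
import Fermat.Agent.ProgramR.CuspLocal.Twist

/-!
# S16 library, dictionary package (D): expansions of `j` and `j_N` at the cusps

All expansions are in the parameter `t = q_N = exp(2πiz/N)` (`ProgramR.CuspLocal.cuspExp N g`).

* `cuspExp_jW`: `j` expands to `j(t^N)` at every cusp;
* `cuspExp_algebraMap_poly`: `P(j)` expands to `P(j(t^N))`;
* `cuspExp_one`: at `i∞` the `t`-expansion is the `q`-expansion with `q = t^N`;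
* `cuspExp_gS_jN`: at the cusp `(S T^i)⁻¹ ∞` the function `j_N = j(N·)` expands to `j(ζ^i t)`,
  `ζ = exp(2πi/N)`.
-/

set_option autoImplicit false

noncomputable section

open ModularCurve HahnSeries Polynomial CongruenceSubgroup UpperHalfPlane
open scoped MatrixGroups

namespace Fermat.Agent.S16lib.Dict

open Fermat.Agent.S28lib Fermat.Agent.ProgramR Fermat.Agent.ProgramR.BarField
  Fermat.Agent.ProgramR.CuspLocal Fermat.Agent.ProgramR.QExp Fermat.Agent.ProgramR.LevelOne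

variable (N : ℕ) [NeZero N]

/-- `j` expands to `j(t^N)` at every cusp. -/
theorem cuspExp_jW (g : SL(2, ℤ)) :
    cuspExp N g (WH0.j (Gamma0 N)) = qExpand ℂ N (jqModC ℂ) := by
  rw [cuspExp_apply]
  show laurentExp (N : ℝ) (slTranslate g jInv) = _
  rw [slTranslate_jInv]
  have h := laurentExp_period_mul (n := N) one_pos isMeroAtInfty_jInv
  rw [mul_one, laurentExp_jInv] at h
  exact h

/-- `P(j)` expands to `P(j(t^N))` at every cusp. -/
theorem cuspExp_algebraMap_poly (g : SL(2, ℤ)) (P : ℂ[X]) :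
    cuspExp N g (algebraMap ℂ[X] ↥(WH0 (Gamma0 N)) P) =
      evalJ ℂ (qExpand ℂ N (jqModC ℂ)) P := by
  have h : (cuspExp N g).comp (algebraMap ℂ[X] ↥(WH0 (Gamma0 N))) =
      evalJ ℂ (qExpand ℂ N (jqModC ℂ)) := by
    apply Polynomial.ringHom_ext
    · intro a
      rw [RingHom.comp_apply, WH0.algebraMap_poly, Polynomial.aeval_C, cuspExp_algebraMap]
      simp only [evalJ, AlgHom.toRingHom_eq_coe, RingHom.coe_coe, Polynomial.aeval_C]
      rw [algebraMap_laurent_eq_C]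
    · rw [RingHom.comp_apply, WH0.algebraMap_poly, Polynomial.aeval_X, cuspExp_jW, evalJ_X]
  exact congrArg (fun φ => φ P) h

/-- At `i∞` the `t`-expansion is the `q`-expansion with `q = t^N`. -/
theorem cuspExp_one (y : ↥(WH0 (Gamma0 N))) :
    cuspExp N 1 y = qExpand ℂ N (qExpWH0 N y) := by
  rw [cuspExp_apply, slTranslate_one, qExpWH0_apply]
  obtain ⟨m, hm⟩ := mem_merRing_of_mem_WH0 N y.2
  have h := laurentExp_period_mul (n := N) one_pos hm
  rw [mul_one] at h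
  exact h

/-! ### The cusps `(S T^i)⁻¹ ∞` -/

/-- The matrix `(S T^i)⁻¹`; the expansion `cuspExp N (gS i) y` is the `t`-expansion of
`z ↦ y (S T^i z) = y (-1/(z+i))`. -/
def gS (i : ℤ) : SL(2, ℤ) := (ModularGroup.S * ModularGroup.T ^ i)⁻¹

/-- `z ↦ (z + c)/N` on the upper half plane. -/
def divH (c : ℝ) (z : ℍ) : ℍ :=
  ⟨((z : ℂ) + c) / N, by
    have hN : (0 : ℝ) < N := natCast_pos_real N
    have h1 : (((z : ℂ) + c) / N).im = z.im / N := by
      have : ((N : ℕ) : ℂ) = ((N : ℝ) : ℂ) := by push_cast; rfl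
      rw [this, Complex.div_ofReal_im]
      simp
    rw [h1]
    exact div_pos z.im_pos hN⟩

@[simp] theorem coe_divH (c : ℝ) (z : ℍ) : ((divH N c z : ℍ) : ℂ) = ((z : ℂ) + c) / N := rfl

theorem divH_vadd (c : ℝ) (z : ℍ) : divH N c z = divH N 0 (c +ᵥ z) := by
  apply UpperHalfPlane.ext
  rw [coe_divH, coe_divH, UpperHalfPlane.coe_vadd]
  push_cast
  ring

/-- The function `z ↦ j((z + c)/N)`. -/
def jDivFun (c : ℝ) : ℍ → ℂ := fun z => jInv (divH N c z)

theorem jDivFun_vadd (c : ℝ) (z : ℍ) : jDivFun N c z = jDivFun N 0 (c +ᵥ z) := by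
  rw [jDivFun, jDivFun, divH_vadd]

/-- `j_N ∘ (S T^i) = j((· + i)/N)`. -/
theorem slTranslate_gS_jScaledFun (i : ℤ) :
    slTranslate (gS i) (jScaledFun N) = jDivFun N (i : ℝ) := by
  funext z
  rw [slTranslate_apply, gS, inv_inv, mul_smul, UpperHalfPlane.modular_T_zpow_smul, jScaledFun,
    Function.comp_apply, jDivFun]
  have h : scaleH N (ModularGroup.S • ((i : ℝ) +ᵥ z)) = ModularGroup.S • divH N (i : ℝ) z := by
    apply UpperHalfPlane.ext
    rw [coe_scaleH, UpperHalfPlane.modular_S_smul, UpperHalfPlane.modular_S_smul]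
    show (N : ℂ) * (-(((i : ℝ) +ᵥ z : ℍ) : ℂ))⁻¹ = (-((divH N (i : ℝ) z : ℍ) : ℂ))⁻¹
    rw [UpperHalfPlane.coe_vadd, coe_divH]
    have hN : (N : ℂ) ≠ 0 := Nat.cast_ne_zero.mpr (NeZero.ne N)
    have hz : ((z : ℂ) + ((i : ℝ) : ℂ)) ≠ 0 := by
      intro h0
      have := congrArg Complex.im h0
      simp at this
      exact z.im_pos.ne' this
    have hz' : (((i : ℝ) : ℂ) + (z : ℂ)) ≠ 0 := by rwa [add_comm]
    field_simp
    ring
  rw [h, jInv_smul]

/-- `j_N` as an element of `WH0 Γ₀(N)` is `jdW N N`. -/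
theorem jdW_self : jdW N N = jdWH0 N N dvd_rfl := jdW_of_dvd N N dvd_rfl

/-- The root of unity `exp(2πi c/N)` as a unit of `ℂ`. -/
def zetaU (c : ℝ) : ℂˣ := Units.mk0 (twistFactor (N : ℝ) c) (twistFactor_ne_zero _ _)

omit [NeZero N] in
@[simp] theorem coe_zetaU (c : ℝ) : ((zetaU N c : ℂˣ) : ℂ) = twistFactor (N : ℝ) c := rfl

/-- meromorphy of `z ↦ j((z+c)/N)` for integer `c` -/
theorem exists_isMeroAtInfty_jDivFun (i : ℤ) :
    ∃ m, IsMeroAtInfty (N : ℝ) m (jDivFun N (i : ℝ)) := by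
  have H := mem_WH0.mp (jdWH0 N N dvd_rfl).2
  have := exists_isMeroAtInfty_slTranslate H (gS i) (NeZero.pos N) (conj_T_zpow_N_mem N (gS i))
  rwa [coe_jdWH0, slTranslate_gS_jScaledFun] at this

/-- The `t`-expansion of `z ↦ j(z/N)` is `j(t)`. -/
theorem laurentExp_jDivFun_zero : laurentExp (N : ℝ) (jDivFun N 0) = jqModC ℂ := by
  obtain ⟨m, hm⟩ := exists_isMeroAtInfty_jDivFun N 0
  rw [Int.cast_zero] at hm
  set M := max m 1 with hM
  have hf : IsMeroAtInfty 1 M jInv := isMeroAtInfty_jInv.mono one_pos (le_max_right _ _)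
  have hf' : IsMeroAtInfty (N : ℝ) (1 * M) (jDivFun N 0) := by
    rw [one_mul]
    exact hm.mono (natCast_pos_real N) (le_max_left _ _)
  have h := laurentExp_comp_of_qParam_pow (d := 1) one_pos (natCast_pos_real N) hf hf'
    (divH N 0) (fun _ => rfl) ?_
  · rw [h, laurentExp_jInv, qExpand_one_apply]
  · intro τ
    rw [pow_one, Function.Periodic.qParam, Function.Periodic.qParam, coe_divH]
    congr 1
    push_cast
    have hN : (N : ℂ) ≠ 0 := Nat.cast_ne_zero.mpr (NeZero.ne N)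
    field_simp
    ring

/-- The `t`-expansion of `z ↦ j((z+i)/N)` is `j(ζ^i t)`. -/
theorem laurentExp_jDivFun (i : ℤ) :
    laurentExp (N : ℝ) (jDivFun N (i : ℝ)) = twist (zetaU N (i : ℝ)) (jqModC ℂ) := by
  obtain ⟨m, hm⟩ := exists_isMeroAtInfty_jDivFun N 0
  rw [Int.cast_zero] at hm
  obtain ⟨m', hm'⟩ := exists_isMeroAtInfty_jDivFun N i
  have h := (laurentExp_coeff_of_vadd (natCast_pos_real N) hm hm'.holo (i : ℝ)
    (fun τ => jDivFun_vadd N (i : ℝ) τ)).2
  ext n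
  rw [h n, laurentExp_jDivFun_zero, twist_coeff, Units.val_zpow_eq_zpow_val, coe_zetaU]

/-- **`j_N` at the cusp `(S T^i)⁻¹ ∞`** expands to `j(ζ^i t)`. -/
theorem cuspExp_gS_jN (i : ℤ) :
    cuspExp N (gS i) (jdW N N) = twist (zetaU N (i : ℝ)) (jqModC ℂ) := by
  rw [jdW_self, cuspExp_apply, coe_jdWH0, slTranslate_gS_jScaledFun, laurentExp_jDivFun]

end Fermat.Agent.S16lib.Dict
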