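import Mathlib
import Fermat.Agent.S28lib.Assembly
import Fermat.Agent.S28lib.Chain
import Fermat.Agent.S28lib.PhiP
import Fermat.Agent.S28lib.UnitB
import Fermat.Agent.S28lib.Theta

/-!
# S16 library, dictionary package (D): Igusa independence mod `ℓ`, packaged

For a prime `ℓ ∤ N` there are `ψ(N)` integer polynomial expressions in the `j(q^d)`, `d ∣ N`, which
are linearly independent over `𝔽_ℓ[j]` inside `𝔽_ℓ((q))`.  This is the chain brick of S28
(`S28lib.exists_independent_monomials`) with all its inputs plugged in.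
-/

set_option autoImplicit false

noncomputable section

open ModularCurve

namespace Fermat.Agent.S16lib.Dict

open Fermat.Agent.S28lib

/-- **Igusa independence mod `ℓ`.** -/
theorem exists_monomials_indep_zmod (N : ℕ) [NeZero N] (ℓ : ℕ) [Fact ℓ.Prime] (hℓN : ¬ ℓ ∣ N) :
    ∃ x : Fin (dedekindPsi N) → MvPolynomial ℕ ℤ, (∀ i, ∀ d ∈ (x i).vars, d ∣ N) ∧
      ∀ P : Fin (dedekindPsi N) → Polynomial (ZMod ℓ),
        ∑ i, evalJ (ZMod ℓ) (jqModC (ZMod ℓ)) (P i) * evalDiv (ZMod ℓ) (x i) = 0 →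
          ∀ i, P i = 0 := by
  classical
  obtain ⟨k, hk1, hk2, hk3, ⟨ι⟩⟩ := exists_residue_field ℓ
  have hNk : (N : k) ≠ 0 := natCast_ne_zero_of_not_dvd ℓ k hℓN
  have hpk : ∀ p : ℕ, p ∣ N → (p : k) ≠ 0 := fun p hp =>
    natCast_ne_zero_of_not_dvd ℓ k (fun h => hℓN (h.trans hp))
  have hΦ : ∀ (p : ℕ) [NeZero p], p.Prime → p ∣ N → ModPolyData k p := by
    intro p _ hp hpN
    haveI : Fact p.Prime := ⟨hp⟩
    exact modPolyData_of_ringHom p ι (hpk p hpN)
  have hU : ∀ (p : ℕ) [NeZero p], p.Prime → p ∣ N → UnitData k p := by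
    intro p _ hp hpN
    haveI : Fact p.Prime := ⟨hp⟩
    have h1 := nuQ_integral p ι (hpk p hpN)
    have h2 := nuQ_rational p (hpk p hpN) (hΦ p hp hpN)
    exact
      { Ψ := h1.choose
        monic := h1.choose_spec.1
        root := h1.choose_spec.2
        A := h2.choose
        B := h2.choose_spec.choose
        den_ne := h2.choose_spec.choose_spec.1
        expr := h2.choose_spec.choose_spec.2 }
  obtain ⟨x, hx, hind⟩ := exists_independent_monomials k N hNk hΦ hU
  exact ⟨x, hx, indep_zmod_of_indep ℓ k x hind⟩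

end Fermat.Agent.S16lib.Dict
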