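import Mathlib
import Fermat.Agent.S16lib.Dict.CuspJ
import Fermat.Agent.S16lib.Dict.IndepMonomials
import Fermat.Agent.S28lib.Twist
import Fermat.Prelude.Thm_ModularCurve_coeffMap_qExpand

/-!
# S16 library, dictionary package (D): transfer of congruences between the cusps of `Γ₀(p)`

`p` prime, `ℓ ≠ p` prime.  All expansions are in `t = exp(2πiz/p)`.

* `evalCusp p i`: the expansion at the cusp `(S T^i)⁻¹ ∞` of an integer polynomial expression in
  `j`, `j_p`: `X_1 ↦ j(t^p)`, `X_p ↦ j(ζ^i t)`;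
* `relation_at_cusp`: the dictionary relation `b(j) y = ℓ^s ∑ a_k(j) x_k` transported to the cusp
  `(S T^i)⁻¹ ∞`;
* `exists_transfer_cusp_zero`: the form consumed by the `W`-sign test: if `y ∈ WH0 Γ₀(p)` has a
  rational `q`-expansion at `i∞` with coefficients in `ℓ^s ℤ_(ℓ)`, there are `B, M ∈ ℤ((t))`,
  `B ≢ 0 mod ℓ`, with `B · (expansion of y at the cusp 0) = ℓ^s M`.
-/

set_option autoImplicit false

noncomputable section

open ModularCurve HahnSeries Polynomial CongruenceSubgroup UpperHalfPlane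
open scoped MatrixGroups

namespace Fermat.Agent.S16lib.Dict

open Fermat.Agent.S28lib Fermat.Agent.ProgramR Fermat.Agent.ProgramR.BarField
  Fermat.Agent.ProgramR.CuspLocal Fermat.Agent.ProgramR.QExp Fermat.Agent.ProgramR.LevelOne

/-- `qExpand` commutes with evaluation of polynomials (any commutative ring). -/
theorem qExpand_evalJ' {R : Type*} [CommRing R] (m : ℕ) [NeZero m] (y : LaurentSeries R)
    (P : Polynomial R) : qExpand R m (evalJ R y P) = evalJ R (qExpand R m y) P := by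
  have : (qExpand R m).comp (evalJ R y) = evalJ R (qExpand R m y) := by
    apply Polynomial.ringHom_ext
    · intro c
      simp only [RingHom.comp_apply]
      change qExpand R m (Polynomial.aeval y (Polynomial.C c)) =
        Polynomial.aeval (qExpand R m y) (Polynomial.C c)
      rw [Polynomial.aeval_C, Polynomial.aeval_C, algebraMap_laurent_eq_C, qExpand_C]
    · simp only [RingHom.comp_apply, evalJ_X]
  exact RingHom.congr_fun this P

variable (p : ℕ) [hp : Fact p.Prime]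

/-- The expansion at the cusp `(S T^i)⁻¹ ∞` of an integer polynomial expression in `j`, `j_p`. -/
def evalCusp (i : ℤ) : MvPolynomial ℕ ℤ →+* LaurentSeries ℂ :=
  MvPolynomial.eval₂Hom (Int.castRingHom (LaurentSeries ℂ))
    (fun d => if d = 1 then qExpand ℂ p (jqModC ℂ) else twist (zetaU p (i : ℝ)) (jqModC ℂ))

theorem jdW_one : jdW p 1 = WH0.j (Gamma0 p) := by
  rw [jdW_of_dvd p 1 (one_dvd p), jdWH0_one]

theorem cuspExp_gS_evalDivW (i : ℤ) (P : MvPolynomial ℕ ℤ) (hP : ∀ d ∈ P.vars, d ∣ p) :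
    cuspExp p (gS i) (evalDivW p P) = evalCusp p i P := by
  have h := MvPolynomial.hom_congr_vars (f₁ := (cuspExp p (gS i)).comp (evalDivW p))
    (f₂ := evalCusp p i) (p₁ := P) (p₂ := P) (Subsingleton.elim _ _) ?_ rfl
  · exact h
  · intro d hd _
    rw [RingHom.comp_apply, evalDivW_X, evalCusp, MvPolynomial.coe_eval₂Hom,
      MvPolynomial.eval₂_X]
    rcases (Nat.dvd_prime hp.out).mp (hP d hd) with rfl | rfl
    · rw [if_pos rfl, jdW_one, cuspExp_jW]
    · rw [if_neg hp.out.one_lt.ne', cuspExp_gS_jN]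

/-- The dictionary relation transported to the cusp `(S T^i)⁻¹ ∞`. -/
theorem relation_at_cusp {n : ℕ} (x : Fin n → MvPolynomial ℕ ℤ)
    (hx : ∀ k, ∀ d ∈ (x k).vars, d ∣ p) (y : ↥(WH0 (Gamma0 p))) (c : ℂ)
    (b : ℤ[X]) (a : Fin n → ℤ[X])
    (h : algebraMap ℂ[X] ↥(WH0 (Gamma0 p)) (b.map (Int.castRingHom ℂ)) * y =
      algebraMap ℂ ↥(WH0 (Gamma0 p)) c *
        ∑ k, algebraMap ℂ[X] ↥(WH0 (Gamma0 p)) ((a k).map (Int.castRingHom ℂ)) *
          evalDivW p (x k)) (i : ℤ) :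
    evalJ ℂ (qExpand ℂ p (jqModC ℂ)) (b.map (Int.castRingHom ℂ)) * cuspExp p (gS i) y =
      HahnSeries.C c *
        ∑ k, evalJ ℂ (qExpand ℂ p (jqModC ℂ)) ((a k).map (Int.castRingHom ℂ)) *
          evalCusp p i (x k) := by
  have h1 := congrArg (cuspExp p (gS i)) h
  rw [map_mul, map_mul, map_sum, cuspExp_algebraMap_poly, cuspExp_algebraMap] at h1
  rw [h1]
  congr 1
  refine Finset.sum_congr rfl fun k _ => ?_
  rw [map_mul, cuspExp_algebraMap_poly, cuspExp_gS_evalDivW p i (x k) (hx k)]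

/-! ### The cusp `0` (`i = 0`): everything is integral -/

/-- The integral version of `evalCusp p 0`: `X_1 ↦ j(t^p)`, `X_p ↦ j(t)`. -/
def evalCuspZ : MvPolynomial ℕ ℤ →+* LaurentSeries ℤ :=
  MvPolynomial.eval₂Hom (Int.castRingHom (LaurentSeries ℤ))
    (fun d => if d = 1 then qExpand ℤ p (jqModC ℤ) else jqModC ℤ)

omit hp in
theorem zetaU_zero : zetaU p ((0 : ℤ) : ℝ) = 1 := by
  apply Units.ext
  rw [coe_zetaU, twistFactor]
  simp

theorem coeffMap_evalCuspZ (P : MvPolynomial ℕ ℤ) :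
    coeffMap (Int.castRingHom ℂ) (evalCuspZ p P) = evalCusp p 0 P := by
  have h : (coeffMap (Int.castRingHom ℂ)).comp (evalCuspZ p) = evalCusp p 0 := by
    apply MvPolynomial.ringHom_ext
    · intro m
      simp only [evalCuspZ, evalCusp, eq_intCast, map_intCast]
    · intro d
      simp only [RingHom.comp_apply, evalCuspZ, evalCusp, MvPolynomial.coe_eval₂Hom,
        MvPolynomial.eval₂_X]
      split_ifs with hd
      · rw [coeffMap_qExpand, coeffMap_jqModC]
      · rw [coeffMap_jqModC, zetaU_zero, twist_one_unit]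
  exact RingHom.congr_fun h P

theorem coeffMap_evalJ_qExpand_int (b : ℤ[X]) :
    coeffMap (Int.castRingHom ℂ) (evalJ ℤ (qExpand ℤ p (jqModC ℤ)) b) =
      evalJ ℂ (qExpand ℂ p (jqModC ℂ)) (b.map (Int.castRingHom ℂ)) := by
  rw [coeffMap_evalJ, coeffMap_qExpand, coeffMap_jqModC]

variable (ℓ : ℕ) [hℓ : Fact ℓ.Prime]

theorem coeffMap_zmod_evalJ_qExpand_ne_zero {b : ℤ[X]}
    (hb : b.map (Int.castRingHom (ZMod ℓ)) ≠ 0) :
    coeffMap (Int.castRingHom (ZMod ℓ)) (evalJ ℤ (qExpand ℤ p (jqModC ℤ)) b) ≠ 0 := by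
  rw [coeffMap_evalJ, coeffMap_qExpand, coeffMap_jqModC, ← qExpand_evalJ']
  intro h
  have h0 : qExpand (ZMod ℓ) p (evalJ (ZMod ℓ) (jqModC (ZMod ℓ))
      (b.map (Int.castRingHom (ZMod ℓ)))) = qExpand (ZMod ℓ) p 0 := by rw [h, map_zero]
  exact evalJ_jqModC_ne_zero hb (qExpand_injective (R := ZMod ℓ) p h0)

/-- **Transfer to the cusp `0`.** -/
theorem exists_transfer_cusp_zero (hℓp : ℓ ≠ p) (y : ↥(WH0 (Gamma0 p))) (yq : LaurentSeries ℚ)
    (hy : qExpWH0 p y = coeffMap (algebraMap ℚ ℂ) yq) (s : ℕ) (hs : yq ∈ seriesIn (lpow ℓ s)) :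
    ∃ B M : LaurentSeries ℤ, coeffMap (Int.castRingHom (ZMod ℓ)) B ≠ 0 ∧
      coeffMap (Int.castRingHom ℂ) B * cuspExp p (gS 0) y =
        HahnSeries.C ((ℓ : ℂ) ^ s) * coeffMap (Int.castRingHom ℂ) M := by
  have hℓN : ¬ ℓ ∣ p := fun h => hℓp ((Nat.prime_dvd_prime_iff_eq hℓ.out hp.out).mp h)
  obtain ⟨x, hx, hind⟩ := exists_monomials_indep_zmod p ℓ hℓN
  obtain ⟨b, a, hb, hrel⟩ := exists_relation_WH0 p ℓ x hx hind y yq hy s hs
  have h1 := relation_at_cusp p x hx y _ b a hrel 0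
  refine ⟨evalJ ℤ (qExpand ℤ p (jqModC ℤ)) b,
    ∑ k, evalJ ℤ (qExpand ℤ p (jqModC ℤ)) (a k) * evalCuspZ p (x k),
    coeffMap_zmod_evalJ_qExpand_ne_zero p ℓ hb, ?_⟩
  rw [coeffMap_evalJ_qExpand_int, h1, map_sum]
  congr 1
  refine Finset.sum_congr rfl fun k _ => ?_
  rw [map_mul, coeffMap_evalJ_qExpand_int, coeffMap_evalCuspZ]

end Fermat.Agent.S16lib.Dict
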